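import Fermat.Agent.S48.H228.DepleteStep

/-!
# S48 / RES piece PACKET (helper228), part 3: the `N`-depletion of a cusp form on `Γ₁(N)`

`exists_depleted`: for `f ∈ S_k(Γ₁(N))` there are a level `M` with `N ∣ M`, with the same prime
divisors as `N`, and `h ∈ S_k(Γ₁(M))` with `a_n(h) = a_n(f)` for `gcd(n, N) = 1` and
`a_n(h) = 0` otherwise.
-/

set_option autoImplicit false

noncomputable section

open scoped MatrixGroups ModularForm Manifold
open Matrix Matrix.SpecialLinearGroup UpperHalfPlane ModularForm CongruenceSubgroup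

namespace Fermat.Agent.S48.H228

open Fermat.Agent.S48.H848

/-- Depletion at a list of divisors of `N`. -/
theorem exists_depleted_list (N : ℕ) [NeZero N] (k : ℤ) (f : CuspForm (Gamma1 N) k) :
    ∀ l : List ℕ, (∀ p ∈ l, p ≠ 0 ∧ p ∣ N) →
      ∃ (M : ℕ) (_ : NeZero M), N ∣ M ∧ (∀ q : ℕ, q.Prime → q ∣ M → q ∣ N) ∧
        ∃ h : CuspForm (Gamma1 M) k,
          (∀ n : ℕ, (∃ p ∈ l, p ∣ n) → ModularFormClass.qCoeff h n = 0) ∧
          (∀ n : ℕ, (∀ p ∈ l, ¬ p ∣ n) →
            ModularFormClass.qCoeff h n = ModularFormClass.qCoeff f n) := by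
  intro l
  induction l with
  | nil =>
    intro _
    refine ⟨N, inferInstance, dvd_rfl, fun q _ hq => hq, f, ?_, fun n _ => rfl⟩
    rintro n ⟨p, hp, -⟩
    simp at hp
  | cons p l ih =>
    intro hl
    obtain ⟨M, hM, hNM, hprimes, h, hzero, hcop⟩ :=
      ih fun q hq => hl q (List.mem_cons_of_mem p hq)
    obtain ⟨hp0, hpN⟩ := hl p List.mem_cons_self
    obtain ⟨h', hh'⟩ := deplete_step (N := M) (k := k) hp0 (hpN.trans hNM) h
    refine ⟨M * p, ⟨Nat.mul_ne_zero (NeZero.ne M) hp0⟩, hNM.trans (Dvd.intro _ rfl), ?_, h', ?_, ?_⟩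
    · intro q hq hqMp
      rcases (Nat.Prime.dvd_mul hq).mp hqMp with hqM | hqp
      · exact hprimes q hq hqM
      · exact hqp.trans hpN
    · rintro n ⟨q, hq, hqn⟩
      rw [hh' n]
      by_cases hpn : p ∣ n
      · rw [if_pos hpn]
      · rw [if_neg hpn]
        rcases List.mem_cons.mp hq with rfl | hql
        · exact absurd hqn hpn
        · exact hzero n ⟨q, hql, hqn⟩
    · intro n hn
      rw [hh' n, if_neg (hn p List.mem_cons_self)]
      exact hcop n fun q hq => hn q (List.mem_cons_of_mem p hq)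

/-- **The `N`-depletion.** -/
theorem exists_depleted (N : ℕ) [NeZero N] (k : ℤ) (f : CuspForm (Gamma1 N) k) :
    ∃ (M : ℕ) (_ : NeZero M), N ∣ M ∧ (∀ q : ℕ, q.Prime → q ∣ M → q ∣ N) ∧
      ∃ h : CuspForm (Gamma1 M) k,
        (∀ n : ℕ, ¬ n.Coprime N → ModularFormClass.qCoeff h n = 0) ∧
        (∀ n : ℕ, n.Coprime N →
          ModularFormClass.qCoeff h n = ModularFormClass.qCoeff f n) := by
  obtain ⟨M, hM, hNM, hprimes, h, hzero, hcop⟩ :=
    exists_depleted_list N k f N.primeFactorsList fun p hp =>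
      ⟨(Nat.prime_of_mem_primeFactorsList hp).ne_zero, Nat.dvd_of_mem_primeFactorsList hp⟩
  refine ⟨M, hM, hNM, hprimes, h, fun n hn => hzero n ?_, fun n hn => hcop n ?_⟩
  · obtain ⟨p, hp, hpd⟩ := Nat.exists_prime_and_dvd hn
    exact ⟨p, (Nat.mem_primeFactorsList (NeZero.ne N)).mpr
      ⟨hp, hpd.trans (Nat.gcd_dvd_right n N)⟩, hpd.trans (Nat.gcd_dvd_left n N)⟩
  · intro p hp hpn
    have hpp := Nat.prime_of_mem_primeFactorsList hp
    have hpN := Nat.dvd_of_mem_primeFactorsList hp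
    have : p ∣ Nat.gcd n N := Nat.dvd_gcd hpn hpN
    rw [Nat.Coprime] at hn
    rw [hn] at this
    exact hpp.one_lt.ne' (Nat.dvd_one.mp this)

end Fermat.Agent.S48.H228
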