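import Mathlib.NumberTheory.ModularForms.Basic
import Mathlib.NumberTheory.ModularForms.Cusps
import Mathlib.NumberTheory.ModularForms.BoundedAtCusp
import Mathlib.NumberTheory.ModularForms.CongruenceSubgroups
import Fermat.Prelude.Def_ModularForm_HeckeOperator

/-!
# S48 / RES piece PACKET (helper228), part 1: slashing a cusp form by a rational matrix

If `f` is a cusp form for an arithmetic group and `g ∈ GL₂(ℝ)` has rational entries, then
`f ∣[k] g` vanishes at every cusp of every arithmetic group (`isZeroAt_slash_of_isRatGL`).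
-/

set_option autoImplicit false

open scoped MatrixGroups ModularForm
open Matrix Matrix.SpecialLinearGroup UpperHalfPlane ModularForm

namespace Fermat.Agent.S48.H228

/-- `g ∈ GL₂(ℝ)` has rational entries. -/
def IsRatGL (g : GL (Fin 2) ℝ) : Prop :=
  ∃ g₀ : GL (Fin 2) ℚ, g₀.map (Rat.castHom ℝ) = g

lemma IsRatGL.mul {g h : GL (Fin 2) ℝ} (hg : IsRatGL g) (hh : IsRatGL h) : IsRatGL (g * h) := by
  obtain ⟨g₀, rfl⟩ := hg
  obtain ⟨h₀, rfl⟩ := hh
  exact ⟨g₀ * h₀, map_mul _ _ _⟩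

/-- An invertible real matrix all of whose entries are rational is in `IsRatGL`. -/
lemma isRatGL_of_entries (g : GL (Fin 2) ℝ) (a b c d : ℚ)
    (h00 : g 0 0 = a) (h01 : g 0 1 = b) (h10 : g 1 0 = c) (h11 : g 1 1 = d) : IsRatGL g := by
  have hdet : (g : Matrix (Fin 2) (Fin 2) ℝ).det = ((a * d - b * c : ℚ) : ℝ) := by
    rw [Matrix.det_fin_two, h00, h01, h10, h11]
    push_cast
    ring
  have hne : (a * d - b * c : ℚ) ≠ 0 := by
    intro h0
    have hu : IsUnit (g : Matrix (Fin 2) (Fin 2) ℝ).det :=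
      (Matrix.isUnit_iff_isUnit_det _).mp g.isUnit
    rw [hdet, h0] at hu
    simp at hu
  refine ⟨Matrix.GeneralLinearGroup.mkOfDetNeZero !![a, b; c, d]
    (by rw [Matrix.det_fin_two_of]; exact hne), ?_⟩
  ext i j
  fin_cases i <;> fin_cases j <;>
    simp [Matrix.GeneralLinearGroup.mkOfDetNeZero, h00, h01, h10, h11]

lemma isRatGL_heckeMatrix (p j : ℕ) : IsRatGL (heckeMatrix p j) := by
  by_cases hp : p = 0
  · subst hp
    rw [ModularForm.heckeMatrix_zero]
    exact ⟨1, map_one _⟩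
  · refine isRatGL_of_entries _ 1 j 0 p ?_ ?_ ?_ ?_ <;> simp [hp]

lemma isRatGL_heckeDiagMatrix (p : ℕ) : IsRatGL (heckeDiagMatrix p) := by
  by_cases hp : p = 0
  · subst hp
    refine ⟨1, ?_⟩
    rw [map_one]
    simp [ModularForm.heckeDiagMatrix]
  · refine isRatGL_of_entries _ p 0 0 1 ?_ ?_ ?_ ?_ <;> simp [hp]

/-- Rational matrices preserve the set of cusps `ℙ¹(ℚ)`. -/
lemma isCusp_smul_of_isRatGL {g : GL (Fin 2) ℝ} (hg : IsRatGL g) {c : OnePoint ℝ}
    (hc : IsCusp c 𝒮ℒ) : IsCusp (g • c) 𝒮ℒ := by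
  obtain ⟨g₀, rfl⟩ := hg
  rw [isCusp_SL2Z_iff] at hc ⊢
  obtain ⟨c₀, rfl⟩ := hc
  refine ⟨g₀ • c₀, ?_⟩
  rw [← Rat.coe_castHom, OnePoint.map_smul]

/-- The slash of a cusp form by a rational matrix vanishes at all cusps. -/
theorem isZeroAt_slash_of_isRatGL {Γ Γ' : Subgroup (GL (Fin 2) ℝ)} [Γ.IsArithmetic]
    [Γ'.IsArithmetic] {k : ℤ} {F : Type*} [FunLike F ℍ ℂ] [CuspFormClass F Γ k] (f : F)
    {g : GL (Fin 2) ℝ} (hg : IsRatGL g) {c : OnePoint ℝ} (hc : IsCusp c Γ') :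
    c.IsZeroAt (⇑f ∣[k] g) k := by
  rw [← OnePoint.IsZeroAt.smul_iff]
  apply CuspFormClass.zero_at_cusps f
  rw [Subgroup.IsArithmetic.isCusp_iff_isCusp_SL2Z] at hc ⊢
  exact isCusp_smul_of_isRatGL hg hc

/-- Finite sums of functions vanishing at a cusp. -/
theorem isZeroAt_sum {ι : Type*} (s : Finset ι) (F : ι → ℍ → ℂ) {k : ℤ} {c : OnePoint ℝ}
    (h : ∀ i ∈ s, c.IsZeroAt (F i) k) : c.IsZeroAt (∑ i ∈ s, F i) k := by
  classical
  induction s using Finset.induction_on with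
  | empty =>
    intro g _
    simp only [Finset.sum_empty]
    rw [SlashAction.zero_slash]
    exact Filter.zero_zeroAtFilter _
  | insert a s ha ih =>
    rw [Finset.sum_insert ha]
    exact (h a (Finset.mem_insert_self a s)).add
      (ih fun i hi => h i (Finset.mem_insert_of_mem hi))

theorem isZeroAt_smul {F : ℍ → ℂ} {k : ℤ} {c : OnePoint ℝ} (a : ℂ)
    (h : c.IsZeroAt F k) : c.IsZeroAt (a • F) k := by
  intro g hg
  rw [ModularForm.smul_slash]
  exact Filter.ZeroAtFilter.smul _ (h g hg)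

end Fermat.Agent.S48.H228
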