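import Fermat.Agent.S48.H228.DepleteCusp
import Fermat.Agent.S48.H848.Tower

/-!
# S48 / RES piece PACKET (helper228), part 2: removing the coefficients `a_n`, `p ∣ n`

For `p ∣ N` and `f ∈ S_k(Γ₁(N))` the function
`f - p^(1-k) (U_p f) ∣ diag(p, 1) = ∑_{p ∤ n} a_n q^n` is a cusp form on `Γ₁(N p)`
(`deplete_step`).  No permutation of cosets is needed: every summand
`f ∣ [[p, j], [0, p]]` is separately `Γ₁(N p)`-invariant.
-/

set_option autoImplicit false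

noncomputable section

open scoped MatrixGroups ModularForm Manifold
open Matrix Matrix.SpecialLinearGroup UpperHalfPlane ModularForm CongruenceSubgroup

namespace Fermat.Agent.S48.H228

open Fermat.Agent.S48.H848

/-- The matrix `[[p, j], [0, p]]` (translation by `j / p`). -/
def translMatrix (p j : ℕ) : GL (Fin 2) ℝ := heckeMatrix p j * heckeDiagMatrix p

lemma isRatGL_translMatrix (p j : ℕ) : IsRatGL (translMatrix p j) :=
  (isRatGL_heckeMatrix p j).mul (isRatGL_heckeDiagMatrix p)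

/-- Commutation of `[[p, j], [0, p]]` with `γ`, `p² ∣ c`, `p ∣ d - a`. -/
theorem translMatrix_mul_track {p : ℕ} (hp : p ≠ 0) (g : SL(2, ℤ)) (j : ℕ) (e₁ e₂ : ℤ)
    (h10 : g 1 0 = p * p * e₂) (hda : g 1 1 - g 0 0 = p * e₁) :
    ∃ g' : SL(2, ℤ), g' 1 0 = g 1 0 ∧ g' 1 1 = g 1 1 - j * p * e₂ ∧
      translMatrix p j * mapGL ℝ g = mapGL ℝ g' * translMatrix p j := by
  have hdet := det_eq848 g
  obtain ⟨g', h00, h01, h10', h11⟩ := exists_SL2_848 (g 0 0 + j * p * e₂)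
    (g 0 1 + j * e₁ - j * j * e₂) (g 1 0) (g 1 1 - j * p * e₂)
    (by linear_combination hdet + (j * p * e₂) * hda - (j * e₁ - j * j * e₂) * h10)
  refine ⟨g', h10', h11, ?_⟩
  have h10r : ((g 1 0 : ℤ) : ℝ) = p * p * e₂ := by exact_mod_cast h10
  have hdar : ((g 1 1 : ℤ) : ℝ) - ((g 0 0 : ℤ) : ℝ) = p * e₁ := by exact_mod_cast hda
  ext i j
  fin_cases i <;> fin_cases j <;>
    simp [translMatrix, hp, Matrix.mul_apply, Fin.sum_univ_two, h00, h01, h10', h11]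
  all_goals first
    | linear_combination (j : ℝ) * h10r
    | linear_combination (-(j : ℝ)) * h10r
    | linear_combination (p : ℝ) * (j : ℝ) * hdar
    | linear_combination (-(p : ℝ)) * (j : ℝ) * hdar
    | linear_combination (j : ℝ) * hdar
    | linear_combination (j : ℝ) * hdar + (j : ℝ) * (j : ℝ) * h10r
    | ring1

variable {N : ℕ} {k : ℤ}

/-- The congruences satisfied by `γ ∈ Γ₁(N p)` when `p ∣ N`. -/
theorem exists_data_of_mem_Gamma1 {p : ℕ} (hpN : p ∣ N) {g : SL(2, ℤ)}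
    (hg : g ∈ Gamma1 (N * p)) :
    ∃ e₁ e₂ : ℤ, g 1 0 = p * p * e₂ ∧ g 1 1 - g 0 0 = p * e₁ ∧ (N : ℤ) ∣ p * e₂ ∧
      (N : ℤ) ∣ g 1 1 - 1 := by
  obtain ⟨h00, h11, h10⟩ := (Gamma1_mem (N * p) g).mp hg
  have d10 : ((N * p : ℕ) : ℤ) ∣ g 1 0 := (ZMod.intCast_zmod_eq_zero_iff_dvd _ _).mp h10
  have d11 : ((N * p : ℕ) : ℤ) ∣ g 1 1 - 1 := by
    apply (ZMod.intCast_zmod_eq_zero_iff_dvd _ _).mp
    push_cast
    rw [h11, sub_self]
  have d00 : ((N * p : ℕ) : ℤ) ∣ g 0 0 - 1 := by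
    apply (ZMod.intCast_zmod_eq_zero_iff_dvd _ _).mp
    push_cast
    rw [h00, sub_self]
  obtain ⟨N', rfl⟩ := hpN
  obtain ⟨t, ht⟩ := d10
  obtain ⟨s, hs⟩ := d11
  obtain ⟨r, hr⟩ := d00
  push_cast at ht hs hr
  refine ⟨(p : ℤ) * N' * (s - r), N' * t, ?_, ?_, ?_, ?_⟩
  · rw [ht]; ring
  · have : g 1 1 - g 0 0 = (g 1 1 - 1) - (g 0 0 - 1) := by ring
    rw [this, hs, hr]; ring
  · exact ⟨t, by push_cast; ring⟩
  · exact ⟨p * s, by rw [hs]; push_cast; ring⟩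

/-- Every translate `f ∣ [[p, j], [0, p]]` of a `Γ₁(N)`-invariant function is
`Γ₁(N p)`-invariant, if `p ∣ N`. -/
theorem SI1_slash_translMatrix {p : ℕ} (hp : p ≠ 0) (hpN : p ∣ N) {f : ℍ → ℂ}
    (hf : SI1 N k f) (j : ℕ) : SI1 (N * p) k (f ∣[k] translMatrix p j) := by
  intro g hg
  obtain ⟨e₁, e₂, h10, hda, hN, hd⟩ := exists_data_of_mem_Gamma1 hpN hg
  obtain ⟨g', h10', h11', hcomm⟩ := translMatrix_mul_track hp g j e₁ e₂ h10 hda
  have hNc : (N : ℤ) ∣ g 1 0 := by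
    obtain ⟨u, hu⟩ := hN
    exact ⟨p * u, by rw [h10]; linear_combination (p : ℤ) * hu⟩
  have hg' : g' ∈ Gamma1 N := by
    refine mem_Gamma1_of_mem_Gamma0 (Gamma0_mem.mpr ?_) ?_
    · rw [h10']
      exact (ZMod.intCast_zmod_eq_zero_iff_dvd _ _).mpr hNc
    · have hdvd : (N : ℤ) ∣ g' 1 1 - 1 := by
        rw [h11']
        have : g 1 1 - j * p * e₂ - 1 = (g 1 1 - 1) - j * (p * e₂) := by ring
        rw [this]
        exact dvd_sub hd (Dvd.dvd.mul_left hN _)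
      have := (ZMod.intCast_zmod_eq_zero_iff_dvd _ _).mpr hdvd
      push_cast at this
      exact sub_eq_zero.mp this
  rw [← SlashAction.slash_mul, hcomm, SlashAction.slash_mul, hf g' hg']

/-- `Γ₁(M) ≤ Γ₁(N)` for `N ∣ M`, on invariant functions. -/
theorem SI1_of_dvd {M : ℕ} (hNM : N ∣ M) {f : ℍ → ℂ} (hf : SI1 N k f) : SI1 M k f := by
  intro g hg
  apply hf g
  obtain ⟨h00, h11, h10⟩ := (Gamma1_mem M g).mp hg
  rw [Gamma1_mem]
  have key : ∀ a : ℤ, ∀ b : ℤ, ((a : ℤ) : ZMod M) = b → ((a : ℤ) : ZMod N) = b := by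
    intro a b hab
    have h1 : ((M : ℕ) : ℤ) ∣ a - b := by
      apply (ZMod.intCast_zmod_eq_zero_iff_dvd _ _).mp
      push_cast
      rw [hab, sub_self]
    have h2 : ((N : ℕ) : ℤ) ∣ a - b := dvd_trans (Int.natCast_dvd_natCast.mpr hNM) h1
    have := (ZMod.intCast_zmod_eq_zero_iff_dvd _ _).mpr h2
    push_cast at this
    exact sub_eq_zero.mp this
  refine ⟨?_, ?_, ?_⟩
  · simpa using key (g 0 0) 1 (by simpa using h00)
  · simpa using key (g 1 1) 1 (by simpa using h11)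
  · simpa using key (g 1 0) 0 (by simpa using h10)

/-- The sum of the translates is `(U_p f) ∣ diag(p, 1)`. -/
theorem sum_translMatrix_eq (p : ℕ) (f : ℍ → ℂ) :
    ∑ j ∈ Finset.range p, f ∣[k] translMatrix p j =
      (heckeU k p f) ∣[k] heckeDiagMatrix p := by
  rw [heckeU_def, SlashAction.sum_slash]
  refine Finset.sum_congr rfl fun j _ => ?_
  rw [translMatrix, SlashAction.slash_mul]

section step

variable [NeZero N]

/-- **Depletion at `p ∣ N`.** -/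
theorem deplete_step {p : ℕ} (hp : p ≠ 0) (hpN : p ∣ N) (f : CuspForm (Gamma1 N) k) :
    ∃ h : CuspForm (Gamma1 (N * p)) k, ∀ n : ℕ,
      ModularFormClass.qCoeff h n = if p ∣ n then 0 else ModularFormClass.qCoeff f n := by
  have : NeZero (N * p) := ⟨Nat.mul_ne_zero (NeZero.ne N) hp⟩
  set W : ℍ → ℂ := ∑ j ∈ Finset.range p, (⇑f) ∣[k] translMatrix p j with hW
  set c : ℂ := ((p : ℂ) ^ (k - 1))⁻¹ with hc
  have hcne : ((p : ℂ) ^ (k - 1)) ≠ 0 := zpow_ne_zero _ (by exact_mod_cast hp)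
  have hWeq : W = (heckeU k p ⇑f) ∣[k] heckeDiagMatrix p := sum_translMatrix_eq p ⇑f
  have hNf : Nice (⇑f) := Nice.of_cusp f
  have hNW : Nice W := by rw [hWeq]; exact (hNf.heckeU k p).slash_diag k p
  have hSIW : SI1 (N * p) k W := by
    intro g hg
    rw [hW, SlashAction.sum_slash]
    exact Finset.sum_congr rfl fun j _ => SI1_slash_translMatrix hp hpN (SI1_coe f) j g hg
  have hSIf : SI1 (N * p) k ⇑f := SI1_of_dvd (Dvd.intro _ rfl) (SI1_coe f)
  have hSI : SI1 (N * p) k (⇑f - c • W) := hSIf.sub (hSIW.smul c)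
  have hol : MDiff (⇑f - c • W) := hNf.hol.sub (hNW.hol.const_smul c)
  have hz : ∀ {x : OnePoint ℝ}, IsCusp x (Gamma1 (N * p) : Subgroup (GL (Fin 2) ℝ)) →
      x.IsZeroAt (⇑f - c • W) k := by
    intro x hx
    have h1 : x.IsZeroAt (⇑f) k := by
      have := isZeroAt_slash_of_isRatGL (Γ' := (Gamma1 (N * p) : Subgroup (GL (Fin 2) ℝ)))
        f (g := 1) ⟨1, map_one _⟩ hx
      rwa [SlashAction.slash_one] at this
    have h2 : x.IsZeroAt W k :=
      isZeroAt_sum _ _ fun j _ => isZeroAt_slash_of_isRatGL f (isRatGL_translMatrix p j) hx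
    have h3 : x.IsZeroAt ((-c) • W) k := isZeroAt_smul _ h2
    have e : ⇑f - c • W = ⇑f + (-c) • W := by rw [_root_.neg_smul, sub_eq_add_neg]
    rw [e]
    exact h1.add h3
  refine ⟨mkCusp1 (⇑f - c • W) hSI hol hz, fun n => ?_⟩
  rw [coe_mkCusp1, Nice.qCoeff_sub hNf (hNW.smul c), Nice.qCoeff_smul hNW, hWeq,
    Nice.qCoeff_slash_diag (hNf.heckeU k p) k hp]
  by_cases hpn : p ∣ n
  · rw [if_pos hpn, if_pos hpn, Nice.qCoeff_heckeU hNf k hp, Nat.div_mul_cancel hpn, hc,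
      inv_mul_cancel_left₀ hcne, sub_self]
  · rw [if_neg hpn, if_neg hpn, mul_zero, sub_zero]

end step

end Fermat.Agent.S48.H228
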