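import Fermat.Agent.S48.H228.MatSemisimple

/-!
# S48 glue piece MAT (helper228): `ResidualStatement ⟹ ResidualMatStatement`

`residualMat : Top.ResidualMatPiece`.  From a `ResidualGaloisRep k` (Prelude) we choose a basis,
pass to matrices, semisimplify (`exists_semisimplification`), and read off traces and
determinants from the characteristic polynomials.
-/

set_option autoImplicit false

open scoped MatrixGroups
open Matrix

namespace Fermat.Agent.S48.H228

open Fermat.Agent.Lib.Cheb.Spec Fermat.Agent.S48.Top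

/-- (MAT) -/
theorem residualMat : ResidualMatPiece := by
  intro hRes N _ ε f hf
  obtain ⟨B, hB⟩ := hRes N ε f hf
  refine ⟨B, fun ℓ hℓ hBℓ k _ _ φ => ?_⟩
  obtain ⟨ρ, hρ⟩ := hB ℓ hℓ hBℓ k φ
  let b : Module.Basis (Fin 2) k ρ.V := Module.finBasisOfFinrankEq k ρ.V ρ.finrank_eq
  obtain ⟨r', hss, hker, htd⟩ := exists_semisimplification (matRep b ρ.ρ)
  refine ⟨r', ?_, hss, ?_⟩
  · obtain ⟨L, hL, hLρ⟩ := ρ.factorsThroughFiniteLevel
    exact ⟨L, hL, fun σ hσ => hker σ (matRep_eq_one b ρ.ρ σ (hLρ σ hσ))⟩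
  · intro p hp hpN A hA
    obtain ⟨hunr, hfrob⟩ := hρ p hp hpN
    refine ⟨fun σ hσ => hker σ (matRep_eq_one b ρ.ρ σ (hunr A hA σ hσ)), fun σ hσ => ?_⟩
    obtain ⟨a, e, ha, he, hcp⟩ := hfrob A hA σ hσ
    have htd' := trace_det_of_charpoly _ (φ a) (φ e) ((matRep_charpoly b ρ.ρ σ).trans hcp)
    exact ⟨a, e, ha, he, (htd σ).1.trans htd'.1, (htd σ).2.trans htd'.2⟩

end Fermat.Agent.S48.H228
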