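import Fermat.Agent.S48.Top.Spec

/-!
# S48 glue piece MAT, part 1 (helper228): from `End k V`-valued to matrix-valued representations

* `matRep b ρ : GQ →* GL (Fin 2) k` for a basis `b` of `V` and `ρ : GQ →* Module.End k V`;
* trace / determinant of `matRep` from the characteristic polynomial of `ρ σ`.
-/

set_option autoImplicit false

open scoped MatrixGroups
open Matrix Polynomial

namespace Fermat.Agent.S48.H228

open Fermat.Agent.Lib.Cheb.Spec

section MatRep

variable {k : Type} [Field k] {V : Type} [AddCommGroup V] [Module k V]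

/-- The matrix-valued monoid homomorphism attached to `ρ` and a basis. -/
noncomputable def matHom (b : Module.Basis (Fin 2) k V) (ρ : GQ →* Module.End k V) :
    GQ →* Matrix (Fin 2) (Fin 2) k :=
  ((LinearMap.toMatrixAlgEquiv b : Module.End k V ≃ₐ[k] Matrix (Fin 2) (Fin 2) k) :
      Module.End k V →* Matrix (Fin 2) (Fin 2) k).comp ρ

/-- The `GL₂(k)`-valued representation attached to `ρ` and a basis. -/
noncomputable def matRep (b : Module.Basis (Fin 2) k V) (ρ : GQ →* Module.End k V) :
    GQ →* GL (Fin 2) k :=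
  (matHom b ρ).toHomUnits

@[simp] lemma matRep_coe (b : Module.Basis (Fin 2) k V) (ρ : GQ →* Module.End k V) (σ : GQ) :
    ((matRep b ρ σ : GL (Fin 2) k) : Matrix (Fin 2) (Fin 2) k) =
      LinearMap.toMatrixAlgEquiv b (ρ σ) := rfl

lemma matRep_eq_one (b : Module.Basis (Fin 2) k V) (ρ : GQ →* Module.End k V) (σ : GQ)
    (h : ρ σ = 1) : matRep b ρ σ = 1 := by
  apply Units.ext
  rw [matRep_coe, h, map_one]
  rfl

lemma matRep_charpoly [Module.Finite k V] (b : Module.Basis (Fin 2) k V)
    (ρ : GQ →* Module.End k V) (σ : GQ) :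
    ((matRep b ρ σ : GL (Fin 2) k) : Matrix (Fin 2) (Fin 2) k).charpoly =
      LinearMap.charpoly (ρ σ) := by
  rw [matRep_coe]
  exact LinearMap.charpoly_toMatrix (ρ σ) b

/-- Trace and determinant of a `2 × 2` matrix from its characteristic polynomial. -/
lemma trace_det_of_charpoly (M : Matrix (Fin 2) (Fin 2) k) (t d : k)
    (h : M.charpoly = X ^ 2 - C t * X + C d) : M.trace = t ∧ M.det = d := by
  rw [Matrix.charpoly_fin_two] at h
  constructor
  · have h1 := congrArg (fun P : k[X] => P.coeff 1) h
    simp only [coeff_add, coeff_sub, coeff_X_pow, coeff_C_mul, coeff_X_one, coeff_C] at h1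
    norm_num at h1
    exact h1
  · have h0 := congrArg (fun P : k[X] => P.coeff 0) h
    simp only [coeff_add, coeff_sub, coeff_X_pow, coeff_C_mul, coeff_X_zero, coeff_C_zero] at h0
    norm_num at h0
    exact h0

end MatRep

end Fermat.Agent.S48.H228
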