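import Fermat.Agent.S48.H228.MatBasic

/-!
# S48 glue piece MAT, part 2 (helper228): semisimplification of a two-dimensional representation

For `r : GQ →* GL₂(k)` there is `r'` with the same traces and determinants, with
`ker r ≤ ker r'`, and such that every `r'.range`-stable line has a stable complement
(`Top.StableLinesSplit`).  If `r` itself is not split we take `r' = diag(χ₁, det r / χ₁)`
for the character `χ₁` of a stable line.
-/

set_option autoImplicit false

open scoped MatrixGroups
open Matrix

namespace Fermat.Agent.S48.H228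

open Fermat.Agent.Lib.Cheb.Spec Fermat.Agent.S48.Top

section Diag

variable {k : Type} [Field k]

/-- The diagonal representation `diag(a, b)`. -/
noncomputable def diagRep (a b : GQ →* kˣ) : GQ →* GL (Fin 2) k :=
  MonoidHom.toHomUnits
    { toFun := fun σ => Matrix.diagonal ![(a σ : k), (b σ : k)]
      map_one' := by
        rw [← Matrix.diagonal_one]
        congr 1
        funext i
        fin_cases i <;> simp
      map_mul' := fun σ τ => by
        rw [Matrix.diagonal_mul_diagonal]
        congr 1
        funext i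
        fin_cases i <;> simp }

@[simp] lemma diagRep_coe (a b : GQ →* kˣ) (σ : GQ) :
    ((diagRep a b σ : GL (Fin 2) k) : Matrix (Fin 2) (Fin 2) k) =
      Matrix.diagonal ![(a σ : k), (b σ : k)] := rfl

lemma diagRep_trace (a b : GQ →* kˣ) (σ : GQ) :
    ((diagRep a b σ : GL (Fin 2) k) : Matrix (Fin 2) (Fin 2) k).trace = (a σ : k) + (b σ : k) := by
  rw [diagRep_coe, Matrix.trace_diagonal, Fin.sum_univ_two]
  simp

lemma diagRep_det (a b : GQ →* kˣ) (σ : GQ) :
    ((diagRep a b σ : GL (Fin 2) k) : Matrix (Fin 2) (Fin 2) k).det = (a σ : k) * (b σ : k) := by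
  rw [diagRep_coe, Matrix.det_diagonal, Fin.prod_univ_two]
  simp

lemma diagRep_eq_one (a b : GQ →* kˣ) (σ : GQ) (ha : a σ = 1) (hb : b σ = 1) :
    diagRep a b σ = 1 := by
  apply Units.ext
  rw [diagRep_coe, ha, hb, Units.val_one]
  show Matrix.diagonal ![(1 : k), 1] = (1 : Matrix (Fin 2) (Fin 2) k)
  rw [← Matrix.diagonal_one]
  congr 1
  funext i
  fin_cases i <;> simp

lemma diagRep_mulVec (a b : GQ →* kˣ) (σ : GQ) (v : Fin 2 → k) :
    ((diagRep a b σ : GL (Fin 2) k) : Matrix (Fin 2) (Fin 2) k) *ᵥ v =
      ![(a σ : k) * v 0, (b σ : k) * v 1] := by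
  funext i
  rw [diagRep_coe, Matrix.mulVec_diagonal]
  fin_cases i <;> simp

/-- Every stable line of a diagonal representation has a stable complement. -/
lemma stableLinesSplit_diagRep (a b : GQ →* kˣ) : StableLinesSplit (diagRep a b).range := by
  intro v hv hstab
  have hstab' : ∀ σ : GQ, ∃ c : k, (a σ : k) * v 0 = c * v 0 ∧ (b σ : k) * v 1 = c * v 1 := by
    intro σ
    obtain ⟨c, hc⟩ := hstab (diagRep a b σ) ⟨σ, rfl⟩
    rw [diagRep_mulVec] at hc
    refine ⟨c, ?_, ?_⟩
    · simpa using congrFun hc 0
    · simpa using congrFun hc 1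
  by_cases h0 : v 0 = 0
  · -- `v = (0, *)`: complement `e₁`
    have h1 : v 1 ≠ 0 := by
      intro h1
      apply hv
      funext i
      fin_cases i
      · exact h0
      · exact h1
    refine ⟨![1, 0], ?_, ?_⟩
    · intro c hc
      have := congrFun hc 0
      simp [h0] at this
    · rintro g ⟨σ, rfl⟩
      refine ⟨(a σ : k), ?_⟩
      rw [diagRep_mulVec]
      funext i
      fin_cases i <;> simp
  · by_cases h1 : v 1 = 0
    · -- `v = (*, 0)`: complement `e₂`
      refine ⟨![0, 1], ?_, ?_⟩
      · intro c hc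
        have := congrFun hc 1
        simp [h1] at this
      · rintro g ⟨σ, rfl⟩
        refine ⟨(b σ : k), ?_⟩
        rw [diagRep_mulVec]
        funext i
        fin_cases i <;> simp
    · -- both coordinates nonzero: the representation is scalar
      have hab : ∀ σ : GQ, (a σ : k) = (b σ : k) := by
        intro σ
        obtain ⟨c, hc0, hc1⟩ := hstab' σ
        have e0 : (a σ : k) = c := mul_right_cancel₀ h0 hc0
        have e1 : (b σ : k) = c := mul_right_cancel₀ h1 hc1
        rw [e0, e1]
      refine ⟨![1, 0], ?_, ?_⟩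
      · intro c hc
        have e1 := congrFun hc 1
        have e0 := congrFun hc 0
        simp at e1 e0
        rcases e1 with hc0 | hv1
        · rw [hc0] at e0
          simp at e0
        · exact h1 hv1
      · rintro g ⟨σ, rfl⟩
        refine ⟨(a σ : k), ?_⟩
        rw [diagRep_mulVec]
        funext i
        fin_cases i <;> simp

end Diag

section Eigen

variable {k : Type} [Field k]

/-- If `c` is an eigenvalue of a `2 × 2` matrix then `c² - tr c + det = 0`. -/
lemma eigen_quadratic (M : Matrix (Fin 2) (Fin 2) k) (v : Fin 2 → k) (hv : v ≠ 0) (c : k)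
    (h : M *ᵥ v = c • v) : c * c + M.det = M.trace * c := by
  have hker : (M - c • (1 : Matrix (Fin 2) (Fin 2) k)) *ᵥ v = 0 := by
    rw [Matrix.sub_mulVec, h, Matrix.smul_mulVec, Matrix.one_mulVec, sub_self]
  have hdet : (M - c • (1 : Matrix (Fin 2) (Fin 2) k)).det = 0 := by
    by_contra hne
    exact hv (Matrix.eq_zero_of_mulVec_eq_zero hne hker)
  rw [Matrix.det_fin_two] at hdet
  simp only [Matrix.sub_apply, Matrix.smul_apply, Matrix.one_apply_eq, smul_eq_mul, mul_one,
    Matrix.one_apply_ne (show (0 : Fin 2) ≠ 1 by decide),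
    Matrix.one_apply_ne (show (1 : Fin 2) ≠ 0 by decide), mul_zero, sub_zero] at hdet
  rw [Matrix.det_fin_two, Matrix.trace_fin_two]
  linear_combination hdet

end Eigen

section Semisimple

variable {k : Type} [Field k]

/-- The character by which `r` acts on a stable line. -/
lemma exists_character_of_stable (r : GQ →* GL (Fin 2) k) (v : Fin 2 → k) (hv : v ≠ 0)
    (hstab : ∀ g ∈ r.range, ∃ c : k, (g : Matrix (Fin 2) (Fin 2) k) *ᵥ v = c • v) :
    ∃ χ : GQ →* kˣ, ∀ σ : GQ,
      ((r σ : GL (Fin 2) k) : Matrix (Fin 2) (Fin 2) k) *ᵥ v = (χ σ : k) • v := by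
  have hex : ∀ σ : GQ, ∃ c : k,
      ((r σ : GL (Fin 2) k) : Matrix (Fin 2) (Fin 2) k) *ᵥ v = c • v :=
    fun σ => hstab (r σ) ⟨σ, rfl⟩
  choose c hc using hex
  have hinj : ∀ x y : k, x • v = y • v → x = y := fun x y hxy =>
    smul_left_injective k hv hxy
  let χ₀ : GQ →* k :=
    { toFun := c
      map_one' := by
        apply hinj
        rw [← hc 1, map_one, one_smul]
        exact Matrix.one_mulVec v
      map_mul' := fun σ τ => by
        apply hinj
        rw [← hc (σ * τ), map_mul, Units.val_mul, ← Matrix.mulVec_mulVec, hc τ,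
          Matrix.mulVec_smul, hc σ, smul_smul, mul_comm] }
  exact ⟨χ₀.toHomUnits, fun σ => hc σ⟩

/-- **Semisimplification.**  Same traces and determinants, bigger kernel, split stable lines. -/
theorem exists_semisimplification (r : GQ →* GL (Fin 2) k) :
    ∃ r' : GQ →* GL (Fin 2) k, StableLinesSplit r'.range ∧
      (∀ σ : GQ, r σ = 1 → r' σ = 1) ∧
      ∀ σ : GQ,
        ((r' σ : GL (Fin 2) k) : Matrix (Fin 2) (Fin 2) k).trace =
            ((r σ : GL (Fin 2) k) : Matrix (Fin 2) (Fin 2) k).trace ∧
          ((r' σ : GL (Fin 2) k) : Matrix (Fin 2) (Fin 2) k).det =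
            ((r σ : GL (Fin 2) k) : Matrix (Fin 2) (Fin 2) k).det := by
  by_cases hss : StableLinesSplit r.range
  · exact ⟨r, hss, fun _ h => h, fun _ => ⟨rfl, rfl⟩⟩
  · unfold StableLinesSplit at hss
    push Not at hss
    obtain ⟨v, hv, hstab, -⟩ := hss
    obtain ⟨χ, hχ⟩ := exists_character_of_stable r v hv hstab
    let δ : GQ →* kˣ := Matrix.GeneralLinearGroup.det.comp r
    have hδ : ∀ σ : GQ, ((δ σ : kˣ) : k) =
        ((r σ : GL (Fin 2) k) : Matrix (Fin 2) (Fin 2) k).det := fun σ => rfl
    have hquad : ∀ σ : GQ, (χ σ : k) * (χ σ : k) +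
        ((r σ : GL (Fin 2) k) : Matrix (Fin 2) (Fin 2) k).det =
        ((r σ : GL (Fin 2) k) : Matrix (Fin 2) (Fin 2) k).trace * (χ σ : k) :=
      fun σ => eigen_quadratic _ v hv _ (hχ σ)
    have hdiv : ∀ σ : GQ, (((δ / χ) σ : kˣ) : k) =
        ((r σ : GL (Fin 2) k) : Matrix (Fin 2) (Fin 2) k).det / (χ σ : k) := by
      intro σ
      rw [MonoidHom.div_apply, Units.val_div_eq_div_val, hδ]
    refine ⟨diagRep χ (δ / χ), stableLinesSplit_diagRep _ _, ?_, ?_⟩
    · intro σ hσ
      have h1 : χ σ = 1 := by
        apply Units.ext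
        have := hχ σ
        rw [hσ, Units.val_one, Matrix.one_mulVec] at this
        have h2 : (1 : k) • v = (χ σ : k) • v := by rw [one_smul]; exact this
        exact (smul_left_injective k hv h2).symm
      have h2 : (δ / χ) σ = 1 := by
        rw [MonoidHom.div_apply, h1, div_one]
        show Matrix.GeneralLinearGroup.det (r σ) = 1
        rw [hσ, map_one]
      exact diagRep_eq_one _ _ σ h1 h2
    · intro σ
      have hne : (χ σ : k) ≠ 0 := Units.ne_zero _
      constructor
      · rw [diagRep_trace, hdiv]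
        field_simp
        linear_combination hquad σ
      · rw [diagRep_det, hdiv]
        field_simp

end Semisimple

end Fermat.Agent.S48.H228
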