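import Fermat.Agent.S48.H228.Deplete
import Fermat.Agent.S48.Top.Spec
import Fermat.Agent.S48.H128.Integrality
import Fermat.Agent.S48.H848.NebenSL

/-!
# S48 / RES piece PACKET (helper228): an everywhere-integral eigen-packet element

The hypotheses `IsEigen N ε f` of S48 do not constrain the coefficients `a_n(f)` with
`gcd(n, N) > 1` (they can be transcendental).  `exists_integral_packet` replaces `f` by its
`N`-depletion `h = ∑_{gcd(n, N) = 1} a_n(f) q^n`, a cusp form of weight one on `Γ₁(M)` for some
`M` with `N ∣ M ∣ N^∞`, which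

* still satisfies the hypotheses of S48 (for `ε` lifted to level `M`), with the same `a_p`,
  `p ∤ N`;
* has ALL `q`-coefficients in a subring `R ⊆ ℂ` which is a finitely generated `ℤ`-module
  (so they are algebraic integers), and `a₁(h) = 1`.

So `h` is `λ`-integral with nonzero reduction at EVERY prime `λ` (no bound on `ℓ` is needed).
-/

set_option autoImplicit false

noncomputable section

open scoped MatrixGroups ModularForm Manifold
open Matrix Matrix.SpecialLinearGroup UpperHalfPlane ModularForm CongruenceSubgroup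

namespace Fermat.Agent.S48.H228

open Fermat.Agent.S48.Top

section Coprime

variable {N : ℕ} (ε : DirichletCharacter ℂ N) (a : ℕ → ℂ)

/-- From the formal Hecke relations: all `a_n`, `gcd(n, N) = 1`, `n ≥ 1`, lie in any subring
containing the values of `ε` and the `a_p`, `p ∤ N`. -/
theorem coeff_mem_of_coprime (R : Subring ℂ) (h1 : a 1 = 1)
    (hT : ∀ p : ℕ, p.Prime → ¬ p ∣ N → ∀ n : ℕ,
      a (p * n) + ε (p : ZMod N) * (if p ∣ n then a (n / p) else 0) = a p * a n)
    (hε : ∀ x : ZMod N, ε x ∈ R) (hp : ∀ p : ℕ, p.Prime → ¬ p ∣ N → a p ∈ R) :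
    ∀ n : ℕ, 0 < n → n.Coprime N → a n ∈ R := by
  intro n
  induction n using Nat.strong_induction_on with
  | _ n ih =>
    intro hn hcop
    rcases Nat.lt_or_ge 1 n with h1n | hn1
    · -- `n > 1`: split off the smallest prime factor
      have hpr : n.minFac.Prime := Nat.minFac_prime (by omega)
      obtain ⟨m, hm⟩ := Nat.minFac_dvd n
      set p := n.minFac with hp_def
      have hpN : ¬ p ∣ N := by
        intro hdvd
        have : p ∣ Nat.gcd n N := Nat.dvd_gcd (Nat.minFac_dvd n) hdvd
        rw [Nat.Coprime] at hcop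
        rw [hcop] at this
        exact hpr.one_lt.ne' (Nat.dvd_one.mp this)
      have hm0 : 0 < m := by
        rcases Nat.eq_zero_or_pos m with h0 | h0
        · rw [h0, mul_zero] at hm; omega
        · exact h0
      have hmn : m < n := by
        rw [hm]
        exact lt_mul_of_one_lt_left hm0 hpr.one_lt
      have hmcop : m.Coprime N := Nat.Coprime.coprime_dvd_left (Dvd.intro_left _ hm.symm) hcop
      have hrel := hT p hpr hpN m
      rw [← hm] at hrel
      have ham : a m ∈ R := ih m hmn hm0 hmcop
      have hsec : (if p ∣ m then a (m / p) else 0) ∈ R := by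
        split_ifs with hpm
        · have hq0 : 0 < m / p := Nat.div_pos (Nat.le_of_dvd hm0 hpm) hpr.pos
          have hqlt : m / p < n := lt_of_le_of_lt (Nat.div_le_self m p) hmn
          have hqcop : (m / p).Coprime N :=
            Nat.Coprime.coprime_dvd_left (Nat.div_dvd_of_dvd hpm) hmcop
          exact ih _ hqlt hq0 hqcop
        · exact R.zero_mem
      have : a n = a p * a m - ε (p : ZMod N) * (if p ∣ m then a (m / p) else 0) := by
        rw [← hrel]; ring
      rw [this]
      exact R.sub_mem (R.mul_mem (hp p hpr hpN) ham) (R.mul_mem (hε _) hsec)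
    · have : n = 1 := by omega
      rw [this, h1]
      exact R.one_mem

end Coprime

/-- **PACKET.**  An everywhere-integral element of the eigen-packet of `f`. -/
theorem exists_integral_packet (N : ℕ) [NeZero N] (ε : DirichletCharacter ℂ N)
    (f : CuspForm (Gamma1 N) 1) (hf : IsEigen N ε f) :
    ∃ (M : ℕ) (_ : NeZero M) (hNM : N ∣ M), (∀ q : ℕ, q.Prime → q ∣ M → q ∣ N) ∧
      ∃ h : CuspForm (Gamma1 M) 1,
        IsEigen M (DirichletCharacter.changeLevel hNM ε) h ∧
        (∃ R : Subring ℂ, Module.Finite ℤ R ∧ (∀ x : ZMod N, ε x ∈ R) ∧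
          ∀ n : ℕ, ModularFormClass.qCoeff h n ∈ R) ∧
        (∀ n : ℕ, n.Coprime N →
          ModularFormClass.qCoeff h n = ModularFormClass.qCoeff f n) ∧
        (∀ n : ℕ, ¬ n.Coprime N → ModularFormClass.qCoeff h n = 0) := by
  obtain ⟨hf₁, hT⟩ := hf
  have hneb : Fermat.Agent.S48.H128.HasNebentypus ε f :=
    Fermat.Agent.S48.H848.nebentypus_of_hecke_SL ε f hT
  obtain ⟨R, hRfin, hRε, hRp⟩ := Fermat.Agent.S48.H128.exists_finite_subring ε f hf₁ hT hneb
  obtain ⟨M, hM, hNM, hprimes, h, hzero, hcop⟩ := exists_depleted N 1 f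
  have hRn : ∀ n : ℕ, n.Coprime N → ModularFormClass.qCoeff f n ∈ R := by
    intro n hn
    rcases Nat.eq_zero_or_pos n with h0 | h0
    · subst h0
      have h00 : ModularFormClass.qCoeff (⇑f) 0 = 0 :=
        CuspFormClass.qExpansion_coeff_zero f one_pos
          (Fermat.Agent.S48.H848.Nice.one_mem_strictPeriods_Gamma1_848 N)
      rw [h00]
      exact R.zero_mem
    · exact coeff_mem_of_coprime ε (fun n => ModularFormClass.qCoeff f n) R hf₁ hT hRε hRp n h0 hn
  refine ⟨M, hM, hNM, hprimes, h, ⟨?_, ?_⟩, ⟨R, hRfin, hRε, ?_⟩, hcop, hzero⟩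
  · rw [hcop 1 (Nat.coprime_one_left N)]
    exact hf₁
  · intro p hp hpM n
    have hpN : ¬ p ∣ N := fun hdvd => hpM (hdvd.trans hNM)
    have hpcop : p.Coprime N := (Nat.Prime.coprime_iff_not_dvd hp).mpr hpN
    have hεp : (DirichletCharacter.changeLevel hNM ε) (p : ZMod M) = ε (p : ZMod N) := by
      have hc : IsCoprime ((p : ℕ) : ℤ) ((M : ℕ) : ℤ) := by
        rw [Nat.isCoprime_iff_coprime]
        exact (Nat.Prime.coprime_iff_not_dvd hp).mpr hpM
      have := DirichletCharacter.changeLevel_eq_cast_of_dvd' ε hNM hc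
      simpa using this
    rw [hεp]
    by_cases hn : n.Coprime N
    · have hpn : (p * n).Coprime N := Nat.Coprime.mul_left hpcop hn
      rw [hcop _ hpn, hcop _ hpcop, hcop _ hn]
      have hrel := hT p hp hpN n
      by_cases hd : p ∣ n
      · rw [if_pos hd] at hrel ⊢
        rw [hcop _ (Nat.Coprime.coprime_dvd_left (Nat.div_dvd_of_dvd hd) hn)]
        exact hrel
      · rw [if_neg hd] at hrel ⊢
        exact hrel
    · have hpn : ¬ (p * n).Coprime N := fun hc =>
        hn (Nat.Coprime.coprime_dvd_left (Dvd.intro_left _ rfl) hc)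
      rw [hzero _ hpn, hzero _ hn]
      by_cases hd : p ∣ n
      · rw [if_pos hd]
        have hq : ¬ (n / p).Coprime N := by
          intro hc
          apply hn
          have : n = p * (n / p) := (Nat.mul_div_cancel' hd).symm
          rw [this]
          exact Nat.Coprime.mul_left hpcop hc
        rw [hzero _ hq]
        ring
      · rw [if_neg hd]
        ring
  · intro n
    by_cases hn : n.Coprime N
    · rw [hcop n hn]
      exact hRn n hn
    · rw [hzero n hn]
      exact R.zero_mem

/-- All `q`-coefficients of the packet element are algebraic integers. -/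
theorem exists_integral_packet' (N : ℕ) [NeZero N] (ε : DirichletCharacter ℂ N)
    (f : CuspForm (Gamma1 N) 1) (hf : IsEigen N ε f) :
    ∃ (M : ℕ) (_ : NeZero M) (hNM : N ∣ M), (∀ q : ℕ, q.Prime → q ∣ M → q ∣ N) ∧
      ∃ h : CuspForm (Gamma1 M) 1,
        IsEigen M (DirichletCharacter.changeLevel hNM ε) h ∧
        (∀ n : ℕ, IsIntegral ℤ (ModularFormClass.qCoeff h n)) ∧
        (∀ p : ℕ, p.Prime → ¬ p ∣ N →
          ModularFormClass.qCoeff h p = ModularFormClass.qCoeff f p) := by
  obtain ⟨M, hM, hNM, hprimes, h, hE, ⟨R, hRfin, -, hRn⟩, hcop, -⟩ :=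
    exists_integral_packet N ε f hf
  refine ⟨M, hM, hNM, hprimes, h, hE, fun n => ?_, fun p hp hpN =>
    hcop p ((Nat.Prime.coprime_iff_not_dvd hp).mpr hpN)⟩
  have hint : IsIntegral ℤ (⟨_, hRn n⟩ : R) := IsIntegral.of_finite ℤ _
  exact hint.map (R.subtype.toIntAlgHom)

end Fermat.Agent.S48.H228
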